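import Fermat.Agent.S35.G.Spec
import Fermat.Agent.S18.H504.ConstF

/-!
# S35 (G'), leaf T0F: the Kummer dictionary for `(t - 1)² (t - Q)` (helper215)

`t0F : Fermat.Agent.S35.G.T0FStatement`.

* `normPow_of_push_eq_zero` : `x = [D]`, `m D = div f`, `φ_* x = 0` ⟹ `N_φ f = c · g ^ m`
  (norm formula + "no zeros and poles ⟹ constant").
* `frobPolyAdd_mk_eq_zero` : `m D = div f`, `(φ - 1)² (φ - Q) f = c · y ^ m` ⟹
  `(g - 1)² (g - Q) [D] = 0` in `Pic⁰` (divisors are torsion-free).
-/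

set_option autoImplicit false
set_option linter.style.haveILetI false

noncomputable section

namespace Fermat.Agent.S35.G.H215

open ModularCurve AlgebraicCurve Fermat.Agent.S35.G

section Abstract

variable {K F F' : Type*} [Field K] [Field F] [Field F'] [Algebra K F] [Algebra K F']

theorem ord_algebraMap_h215 (v : Place K F) (c : K) : v.ord (algebraMap K F c) = 0 := by
  rcases eq_or_ne c 0 with rfl | hc
  · simp
  have h1 : algebraMap K F c ∈ v.toValuationSubring := v.algebraMap_mem' c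
  have h2 : algebraMap K F c⁻¹ ∈ v.toValuationSubring := v.algebraMap_mem' c⁻¹
  have hu : IsUnit (⟨algebraMap K F c, h1⟩ : v.toValuationSubring) := by
    refine IsUnit.of_mul_eq_one (⟨algebraMap K F c⁻¹, h2⟩ : v.toValuationSubring) ?_
    ext
    show algebraMap K F c * algebraMap K F c⁻¹ = 1
    rw [← map_mul, mul_inv_cancel₀ hc, map_one]
  exact v.ord_coe_unit hu.unit

theorem ord_toRingAut_h215 (g : SemilinearAut K F) (w : Place K F) (f : F) :
    w.ord (SemilinearAut.toRingAut g f) = (g⁻¹ • w).ord f := by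
  have h := SemilinearAut.ord_smul g (g⁻¹ • w) f
  rw [smul_inv_smul] at h
  exact h

theorem ord_pow_h215 (v : Place K F) (y : F) (m : ℕ) : v.ord (y ^ m) = m * v.ord y := by
  have := v.ord_zpow y (m : ℤ)
  simpa using this

theorem frobSub_ne_zero_h215 (φ : F ≃+* F) (Q : ℕ) {f : F} (hf : f ≠ 0) : frobSub φ Q f ≠ 0 := by
  unfold frobSub
  exact mul_ne_zero (by simpa using hf) (inv_ne_zero (pow_ne_zero Q hf))

theorem ord_frobSub_h215 (g : SemilinearAut K F) (Q : ℕ) {h : F} (hh : h ≠ 0) (v : Place K F) :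
    v.ord (frobSub (SemilinearAut.toRingAut g) Q h) = (g⁻¹ • v).ord h - Q * v.ord h := by
  unfold frobSub
  have h1 : SemilinearAut.toRingAut g h ≠ 0 := by simpa using hh
  rw [v.ord_mul h1 (inv_ne_zero (pow_ne_zero Q hh)), v.ord_inv, ord_pow_h215, ord_toRingAut_h215,
    sub_eq_add_neg]

/-- **Norm side.**  `m D = div f` and `φ_* [D] = 0` ⟹ `N_φ f` is a constant times an `m`-th
power, provided functions on `F` without zeros and poles are constant. -/
theorem normPow_of_push_eq_zero (φ : F →ₐ[K] F') (hφ : φ.toRingHom.IsIntegral)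
    (hfin : FiniteAlong K φ) (hN : NormFormulaAlong K φ hfin)
    (hconst : ∀ u : F, u ≠ 0 → (∀ v : Place K F, v.ord u = 0) → ∃ c : K, u = algebraMap K F c)
    (m : ℕ) (D : Divisor.degZero (K := K) (F := F')) {f : F'} (hf : f ≠ 0)
    (hfD : ∀ w : Place K F', w.ord f = (m : ℤ) * (D : Divisor K F') w)
    (hx : pic0PushTotal φ (Pic0.mk D) = 0) : NormPow φ m f := by
  rw [pic0PushTotal_eq φ hφ hfin hN, pic0Push_mk, S29.H395.mk_eq_zero_iff] at hx
  obtain ⟨g, hg, hgD⟩ := hx
  have hgD' : ∀ v : Place K F, Divisor.pushforwardAlong φ hφ (D : Divisor K F') v = v.ord g :=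
    fun v => hgD v
  -- the push-forward of `m • D = div f`
  have hpush : ∀ v : Place K F,
      Divisor.pushforwardAlong φ hφ ((m : ℤ) • (D : Divisor K F')) v
        = v.ord (S29.H395.normAlong φ f) := fun v =>
    S29.H395.pushforwardAlong_apply_eq_ord φ hφ hfin hN hf
      (fun w => by rw [Finsupp.smul_apply, smul_eq_mul, hfD w]) v
  have hNf : S29.H395.normAlong φ f ≠ 0 := S29.H395.normAlong_ne_zero φ hfin hf
  have hord : ∀ v : Place K F, v.ord (S29.H395.normAlong φ f) = (m : ℤ) * v.ord g := by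
    intro v
    rw [← hpush v, map_zsmul, Finsupp.smul_apply, smul_eq_mul, hgD' v]
  have hgm : g ^ m ≠ 0 := pow_ne_zero m hg
  have hu0 : S29.H395.normAlong φ f * (g ^ m)⁻¹ ≠ 0 := mul_ne_zero hNf (inv_ne_zero hgm)
  obtain ⟨c, hc⟩ := hconst _ hu0 (fun v => by
    rw [v.ord_mul hNf (inv_ne_zero hgm), v.ord_inv, ord_pow_h215, hord v]; ring)
  refine ⟨c, g, ?_⟩
  rw [← hc, mul_assoc, inv_mul_cancel₀ hgm, mul_one]

/-- **Kummer side.**  `m D = div f` and `(φ - 1)² (φ - Q) f = c · y ^ m` ⟹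
`(g - 1)² (g - Q) [D] = 0` in `Pic⁰`. -/
theorem frobPolyAdd_mk_eq_zero (g : SemilinearAut K F) (m : ℕ) (hm : m ≠ 0) (Q : ℕ)
    (D : Divisor.degZero (K := K) (F := F)) {f : F} (hf : f ≠ 0)
    (hfD : ∀ w : Place K F, w.ord f = (m : ℤ) * (D : Divisor K F) w)
    {c : K} {y : F}
    (hyc : frobPoly (SemilinearAut.toRingAut g) Q f = algebraMap K F c * y ^ m) :
    g • (g • (g • Pic0.mk D - Pic0.mk D) - (g • Pic0.mk D - Pic0.mk D))
      - Q • (g • (g • Pic0.mk D - Pic0.mk D) - (g • Pic0.mk D - Pic0.mk D)) = 0 := by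
  set τ := SemilinearAut.toRingAut g with hτ
  have h1 : frobSub τ 1 f ≠ 0 := frobSub_ne_zero_h215 τ 1 hf
  have h2 : frobSub τ 1 (frobSub τ 1 f) ≠ 0 := frobSub_ne_zero_h215 τ 1 h1
  have h3 : frobPoly τ Q f ≠ 0 := frobSub_ne_zero_h215 τ Q h2
  have hy : y ≠ 0 := by
    rintro rfl
    rw [zero_pow hm, mul_zero] at hyc
    exact h3 hyc
  have hcF : algebraMap K F c ≠ 0 := by
    intro h0
    rw [h0, zero_mul] at hyc
    exact h3 hyc
  -- the divisor `E = (g - Q)(g - 1)² D`
  set U : Divisor.degZero (K := K) (F := F) := SemilinearAut.degZeroSMulHom g D - D with hU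
  set W : Divisor.degZero (K := K) (F := F) := SemilinearAut.degZeroSMulHom g U - U with hW
  set E : Divisor.degZero (K := K) (F := F) := SemilinearAut.degZeroSMulHom g W - Q • W with hE
  have hgoal : g • (g • (g • Pic0.mk D - Pic0.mk D) - (g • Pic0.mk D - Pic0.mk D))
      - Q • (g • (g • Pic0.mk D - Pic0.mk D) - (g • Pic0.mk D - Pic0.mk D)) = Pic0.mk E := by
    rw [SemilinearAut.pic0_smul_mk]
    rfl
  rw [hgoal]
  refine (QuotientAddGroup.eq_zero_iff E).2 ?_
  rw [AddSubgroup.mem_addSubgroupOf]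
  refine ⟨y, hy, fun w => ?_⟩
  have hUw : ∀ v : Place K F, (U : Divisor K F) v
      = (D : Divisor K F) (g⁻¹ • v) - (D : Divisor K F) v := by
    intro v
    simp only [hU, AddSubgroupClass.coe_sub, SemilinearAut.coe_degZeroSMulHom,
      Finsupp.sub_apply, SemilinearAut.divisor_smul_apply]
  have hWw : ∀ v : Place K F, (W : Divisor K F) v
      = (U : Divisor K F) (g⁻¹ • v) - (U : Divisor K F) v := by
    intro v
    simp only [hW, AddSubgroupClass.coe_sub, SemilinearAut.coe_degZeroSMulHom,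
      Finsupp.sub_apply, SemilinearAut.divisor_smul_apply]
  have hEw : (E : Divisor K F) w
      = (W : Divisor K F) (g⁻¹ • w) - (Q : ℤ) * (W : Divisor K F) w := by
    simp only [hE, AddSubgroupClass.coe_sub, SemilinearAut.coe_degZeroSMulHom,
      Finsupp.sub_apply, SemilinearAut.divisor_smul_apply, AddSubgroup.coe_nsmul,
      Finsupp.smul_apply, nsmul_eq_mul]
  have e1 : ∀ v : Place K F, v.ord (frobSub τ 1 f)
      = (m : ℤ) * (U : Divisor K F) v := by
    intro v
    rw [hτ, ord_frobSub_h215 g 1 hf v, hUw v, hfD, hfD]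
    push_cast; ring
  have e2 : ∀ v : Place K F, v.ord (frobSub τ 1 (frobSub τ 1 f))
      = (m : ℤ) * (W : Divisor K F) v := by
    intro v
    rw [hτ, ord_frobSub_h215 g 1 h1 v, hWw v, e1, e1]
    push_cast; ring
  have hord : w.ord (frobPoly τ Q f) = (m : ℤ) * (E : Divisor K F) w := by
    show w.ord (frobSub τ Q (frobSub τ 1 (frobSub τ 1 f))) = _
    rw [hτ, ord_frobSub_h215 g Q h2 w, hEw, e2, e2]
    ring
  have hord2 : w.ord (frobPoly τ Q f) = (m : ℤ) * w.ord y := by
    rw [hyc, w.ord_mul hcF (pow_ne_zero m hy), ord_algebraMap_h215, zero_add, ord_pow_h215]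
  have hm' : (m : ℤ) ≠ 0 := by exact_mod_cast hm
  exact mul_left_cancel₀ hm' (hord.symm.trans hord2)

end Abstract

/-- **Leaf T0F** of (G'): the Kummer dictionary. -/
theorem t0F : T0FStatement := by
  intro M q m _ _ _hq _hqM hm _hqm hα hβ H A hA s hs x hx ha hb
  obtain ⟨D, rfl⟩ := Pic0.mk_surjective x
  -- the Kummer generator
  have hprin : ((m • D : Divisor.degZero (K := Qb) (F := modularFunctionFieldBar (M * q))) :
      Divisor Qb (modularFunctionFieldBar (M * q))) ∈
      Divisor.principal (K := Qb) (F := modularFunctionFieldBar (M * q)) := by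
    have h0 : Pic0.mk (m • D) = 0 := hx
    have := (QuotientAddGroup.eq_zero_iff (m • D)).1 h0
    simpa [AddSubgroup.mem_addSubgroupOf] using this
  obtain ⟨f, hf, hfD⟩ := hprin
  have hfD' : ∀ v : Place Qb (modularFunctionFieldBar (M * q)),
      v.ord f = (m : ℤ) * (D : Divisor Qb (modularFunctionFieldBar (M * q))) v := by
    intro v
    rw [← hfD v]
    simp [Finsupp.smul_apply]
  have hconst := Fermat.Agent.S18.H504.constOfOrdZero_modularFunctionFieldBar M
  obtain ⟨hα1, hα2, hα3⟩ := hα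
  obtain ⟨hβ1, hβ2, hβ3⟩ := hβ
  have hNα : NormPow (heckeAlphaBar Qb M q) m f :=
    normPow_of_push_eq_zero _ hα1 hα2 hα3 hconst m D hf hfD' ha
  have hNβ : NormPow (heckeBetaBar Qb M q) m f :=
    normPow_of_push_eq_zero _ hβ1 hβ2 hβ3 hconst m D hf hfD' hb
  obtain ⟨c, y, _, hyc⟩ := H A hA s hs f hf (fun v => ⟨_, hfD' v⟩) hNα hNβ
  exact frobPolyAdd_mk_eq_zero
    (arithmeticGalois (modularFunctionFieldFull (M * q)) (s * s)) m hm.ne' (q ^ 2) D hf hfD' hyc

end Fermat.Agent.S35.G.H215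

end
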